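import Mathlib.RingTheory.Valuation.ValuationSubring
import Mathlib.Tactic.LinearCombination
import Mathlib.Tactic.FieldSimp

/-!
# Transfer of the residue of `x ^ N / U` from `j` to the Hauptmodul `t₉` (helper934, S36 REG / R4)

Mathlib only; the level-`9` mirror (`q = 2` path) of helper878's `Transfer4`.

`t₉ = (η(z)/η(9z))³` is the Hauptmodul of `Γ₀(9)`; with `Q = t₉² + 9 t₉ + 27` one has

  `j · t₉⁹ · Q = (t₉ + 9)³ (t₉³ + 243 t₉² + 2187 t₉ + 6561)³`,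
  `(j - 1728) · t₉⁹ · Q = (t₉⁶ - 486 t₉⁵ - 24057 t₉⁴ - 367416 t₉³ - 2657205 t₉² - 9565938 t₉
      - 14348907)²`,
  `(θ t₉)⁶ · t₉³ = Δ · Q⁵`,   i.e.  `J'(X)⁶ · Q(X)⁵ = J(X)⁴ (J(X) - 1728)³ · X³`.

`V` a valuation subring of a field `L` (application: `V = V_mid`), and

* `j₁ = α(j)`, `j₂ = γ(j)`, `h₁ = α(t₉)`, `h₂ = γ(t₉)` (`γ : f(t) ↦ f(t^{q²})`);
* `h₁`, `Q(h₁)`, `j₁`, `j₁ - 1728` units of `V`, `h₂ ∈ V`, `h₂ - h₁ ∈ 𝔪_V`;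
* `hres` for `j`: `((j₂ - j₁) ^ (6k) - (j₁⁴ (j₁ - 1728)³) ^ k · U) / U ∈ 𝔪_V`.

Then `hres` holds for `t₉` with `g₉ = Q(h₁)⁵ / h₁³`:
`((h₂ - h₁) ^ (6k) - g₉ ^ k · U) / U ∈ 𝔪_V`.

Since `t₉` and `Q(t₉)` divide powers of `3` in the non-cuspidal chart, `g₉` is a unit of the
whole non-cuspidal chart in residue characteristic `≠ 3` (in particular for `q = 2`).
-/

set_option autoImplicit false

namespace Fermat.Agent.S36.H934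

open IsLocalRing

variable {L : Type*} [Field L]

/-- The numerator `P₉(X) = (X + 9)(X³ + 243 X² + 2187 X + 6561)` of `J₉ = P₉³ / D₉`. -/
def p9 {S : Type*} [CommRing S] (a : S) : S :=
  (a + 9) * (a ^ 3 + 243 * a ^ 2 + 2187 * a + 6561)

/-- The denominator `D₉(X) = X⁹ (X² + 9 X + 27)` of `J₉ = P₉³ / D₉`. -/
def d9 {S : Type*} [CommRing S] (a : S) : S := a ^ 9 * (a ^ 2 + 9 * a + 27)

/-- `R₉(X)`, the square root of `P₉³ - 1728 D₉`. -/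
def r9 {S : Type*} [CommRing S] (a : S) : S :=
  a ^ 6 - 486 * a ^ 5 - 24057 * a ^ 4 - 367416 * a ^ 3 - 2657205 * a ^ 2 - 9565938 * a
    - 14348907

theorem p9_cube_sub {S : Type*} [CommRing S] (a : S) :
    p9 a ^ 3 - 1728 * d9 a = r9 a ^ 2 := by
  rw [p9, d9, r9]; ring

/-- The difference quotient of `P₉`. -/
def dqP9 {S : Type*} [CommRing S] (a b : S) : S :=
  (b ^ 3 + b ^ 2 * a + b * a ^ 2 + a ^ 3) + 252 * (b ^ 2 + b * a + a ^ 2) + 4374 * (b + a)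
    + 26244

theorem dqP9_spec {S : Type*} [CommRing S] (a b : S) :
    p9 b - p9 a = (b - a) * dqP9 a b := by
  rw [p9, p9, dqP9]; ring

/-- The difference quotient of `D₉`. -/
def dqD9 {S : Type*} [CommRing S] (a b : S) : S :=
  (b ^ 10 + b ^ 9 * a + b ^ 8 * a ^ 2 + b ^ 7 * a ^ 3 + b ^ 6 * a ^ 4 + b ^ 5 * a ^ 5
      + b ^ 4 * a ^ 6 + b ^ 3 * a ^ 7 + b ^ 2 * a ^ 8 + b * a ^ 9 + a ^ 10)
    + 9 * (b ^ 9 + b ^ 8 * a + b ^ 7 * a ^ 2 + b ^ 6 * a ^ 3 + b ^ 5 * a ^ 4 + b ^ 4 * a ^ 5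
      + b ^ 3 * a ^ 6 + b ^ 2 * a ^ 7 + b * a ^ 8 + a ^ 9)
    + 27 * (b ^ 8 + b ^ 7 * a + b ^ 6 * a ^ 2 + b ^ 5 * a ^ 3 + b ^ 4 * a ^ 4 + b ^ 3 * a ^ 5
      + b ^ 2 * a ^ 6 + b * a ^ 7 + a ^ 8)

theorem dqD9_spec {S : Type*} [CommRing S] (a b : S) :
    d9 b - d9 a = (b - a) * dqD9 a b := by
  rw [d9, d9, dqD9]; ring

/-- The difference quotient of `J₉ = P₉³ / D₉`, cleared of denominators:
`P₉(b)³ D₉(a) - P₉(a)³ D₉(b) = (b - a) · dq9 a b`. -/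
def dq9 {S : Type*} [CommRing S] (a b : S) : S :=
  dqP9 a b * (p9 b ^ 2 + p9 b * p9 a + p9 a ^ 2) * d9 a - p9 a ^ 3 * dqD9 a b

theorem dq9_spec {S : Type*} [CommRing S] (a b : S) :
    p9 b ^ 3 * d9 a - p9 a ^ 3 * d9 b = (b - a) * dq9 a b := by
  have hP := dqP9_spec a b
  have hD := dqD9_spec a b
  rw [dq9]
  linear_combination ((p9 b ^ 2 + p9 b * p9 a + p9 a ^ 2) * d9 a) * hP - (p9 a ^ 3) * hD

theorem dqP9_diag {S : Type*} [CommRing S] (a : S) :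
    dqP9 a a = 4 * a ^ 3 + 756 * a ^ 2 + 8748 * a + 26244 := by
  rw [dqP9]; ring

theorem dqD9_diag {S : Type*} [CommRing S] (a : S) :
    dqD9 a a = 11 * a ^ 10 + 90 * a ^ 9 + 243 * a ^ 8 := by
  rw [dqD9]; ring

theorem dq9_diag {S : Type*} [CommRing S] (a : S) :
    dq9 a a = p9 a ^ 2 * a ^ 8 * r9 a := by
  rw [dq9, dqP9_diag, dqD9_diag]
  have e : (4 * a ^ 3 + 756 * a ^ 2 + 8748 * a + 26244) * (3 * d9 a)
      - p9 a * (11 * a ^ 10 + 90 * a ^ 9 + 243 * a ^ 8) = a ^ 8 * r9 a := by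
    rw [p9, d9, r9]; ring
  linear_combination (p9 a ^ 2) * e

theorem map_p9 {S T : Type*} [CommRing S] [CommRing T] (f : S →+* T) (a : S) :
    f (p9 a) = p9 (f a) := by
  simp only [p9, map_mul, map_add, map_pow, map_ofNat]

theorem map_d9 {S T : Type*} [CommRing S] [CommRing T] (f : S →+* T) (a : S) :
    f (d9 a) = d9 (f a) := by
  simp only [d9, map_mul, map_add, map_pow, map_ofNat]

theorem map_dqP9 {S T : Type*} [CommRing S] [CommRing T] (f : S →+* T) (a b : S) :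
    f (dqP9 a b) = dqP9 (f a) (f b) := by
  simp only [dqP9, map_mul, map_add, map_pow, map_ofNat]

theorem map_dqD9 {S T : Type*} [CommRing S] [CommRing T] (f : S →+* T) (a b : S) :
    f (dqD9 a b) = dqD9 (f a) (f b) := by
  simp only [dqD9, map_mul, map_add, map_pow, map_ofNat]

theorem map_dq9 {S T : Type*} [CommRing S] [CommRing T] (f : S →+* T) (a b : S) :
    f (dq9 a b) = dq9 (f a) (f b) := by
  simp only [dq9, map_sub, map_mul, map_add, map_pow, map_p9, map_d9, map_dqP9, map_dqD9]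

/-- The residue-field identity behind the transfer (denominator-free form):
`Q⁵ · (dq9 a a)⁶ = c⁴ (c - 1728)³ · a³ · (D₉ D₉)⁶` whenever `c · D₉(a) = P₉(a)³`. -/
theorem res_alg9 {κ : Type*} [CommRing κ] (a c : κ) (hJ : c * d9 a = p9 a ^ 3) :
    (a ^ 2 + 9 * a + 27) ^ 5 * (p9 a ^ 2 * a ^ 8 * r9 a) ^ 6
      = (c ^ 4 * (c - 1728) ^ 3) * a ^ 3 * (d9 a * d9 a) ^ 6 := by
  have hJ' : (c - 1728) * d9 a = r9 a ^ 2 := by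
    linear_combination hJ + p9_cube_sub a
  have hD : d9 a = a ^ 9 * (a ^ 2 + 9 * a + 27) := rfl
  have h4 := congrArg (fun x => x ^ 4) hJ
  have h3 := congrArg (fun x => x ^ 3) hJ'
  beta_reduce at h4 h3
  generalize p9 a = P at *
  generalize r9 a = R at *
  generalize d9 a = D at *
  generalize a ^ 2 + 9 * a + 27 = Q at *
  subst hD
  linear_combination
    (-(a ^ 3 * (a ^ 9 * Q) ^ 5 * ((c - 1728) * (a ^ 9 * Q)) ^ 3)) * h4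
      - (a ^ 3 * (a ^ 9 * Q) ^ 5 * (P ^ 3) ^ 4) * h3

/-- **Transfer of `hres` from `j` to `t₉`**, general form: `g` any element of `L` with
`g · h₁³ = Q(h₁)⁵`. -/
theorem hres_transfer9_of_eq (V : ValuationSubring L) (j₁ j₂ h₁ h₂ U g : L) (k : ℕ)
    (hJ₁ : j₁ * (h₁ ^ 9 * (h₁ ^ 2 + 9 * h₁ + 27))
      = ((h₁ + 9) * (h₁ ^ 3 + 243 * h₁ ^ 2 + 2187 * h₁ + 6561)) ^ 3)
    (hJ₂ : j₂ * (h₂ ^ 9 * (h₂ ^ 2 + 9 * h₂ + 27))
      = ((h₂ + 9) * (h₂ ^ 3 + 243 * h₂ ^ 2 + 2187 * h₂ + 6561)) ^ 3)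
    (hh₁ : V.valuation h₁ = 1) (hh₁' : V.valuation (h₁ ^ 2 + 9 * h₁ + 27) = 1)
    (hj₁ : V.valuation j₁ = 1) (hj₁' : V.valuation (j₁ - 1728) = 1)
    (hh₂ : h₂ ∈ V) (hx : h₂ - h₁ ∈ V.nonunits)
    (hg : g * h₁ ^ 3 = (h₁ ^ 2 + 9 * h₁ + 27) ^ 5)
    (hres : ((j₂ - j₁) ^ (6 * k) - (j₁ ^ 4 * (j₁ - 1728) ^ 3) ^ k * U) * U⁻¹ ∈ V.nonunits) :
    ((h₂ - h₁) ^ (6 * k) - g ^ k * U) * U⁻¹ ∈ V.nonunits := by
  classical
  by_cases hU : U = 0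
  · -- degenerate: `U⁻¹ = 0`
    rw [hU, inv_zero, mul_zero]
    rw [ValuationSubring.mem_nonunits_iff, map_zero]
    exact zero_lt_one
  have hJ₁' : j₁ * d9 h₁ = p9 h₁ ^ 3 := hJ₁
  have hJ₂' : j₂ * d9 h₂ = p9 h₂ ^ 3 := hJ₂
  -- elements of `V`
  have h₁V : h₁ ∈ V := (V.valuation_le_one_iff _).1 hh₁.le
  have j₁V : j₁ ∈ V := (V.valuation_le_one_iff _).1 hj₁.le
  have h₁0 : h₁ ≠ 0 := fun h0 => by rw [h0, map_zero] at hh₁; exact zero_ne_one hh₁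
  -- `g ∈ V`
  have hgv : V.valuation g = 1 := by
    have h := congrArg V.valuation hg
    rw [map_mul, map_pow, map_pow, hh₁, hh₁', one_pow, one_pow, mul_one] at h
    exact h
  have gV : g ∈ V := (V.valuation_le_one_iff _).1 hgv.le
  -- `Yj = (j₂ - j₁)^(6k) / U ∈ V`
  have hYj : (j₂ - j₁) ^ (6 * k) * U⁻¹ - (j₁ ^ 4 * (j₁ - 1728) ^ 3) ^ k ∈ V.nonunits := by
    have e : (j₂ - j₁) ^ (6 * k) * U⁻¹ - (j₁ ^ 4 * (j₁ - 1728) ^ 3) ^ k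
        = ((j₂ - j₁) ^ (6 * k) - (j₁ ^ 4 * (j₁ - 1728) ^ 3) ^ k * U) * U⁻¹ := by
      field_simp
    rw [e]; exact hres
  have hgjV : (j₁ ^ 4 * (j₁ - 1728) ^ 3) ^ k ∈ V :=
    pow_mem (mul_mem (pow_mem j₁V _) (pow_mem (sub_mem j₁V (ofNat_mem V 1728)) _)) _
  have hYjV : (j₂ - j₁) ^ (6 * k) * U⁻¹ ∈ V := by
    have h1 : (j₂ - j₁) ^ (6 * k) * U⁻¹ - (j₁ ^ 4 * (j₁ - 1728) ^ 3) ^ k ∈ V :=
      (V.valuation_le_one_iff _).1 ((V.mem_nonunits_iff).1 hYj).le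
    have := add_mem h1 hgjV
    simpa using this
  generalize hYjL : (j₂ - j₁) ^ (6 * k) * U⁻¹ = YjL at hYj hYjV
  lift h₁ to V using h₁V with a₁
  lift h₂ to V using hh₂ with a₂
  lift j₁ to V using j₁V with c₁
  lift g to V using gV with γ
  lift YjL to V using hYjV with Yj
  -- the residue map
  let r : V →+* ResidueField V := residue V
  have hr0 : ∀ a : V, r a = 0 ↔ (a : L) ∈ V.nonunits := fun a => by
    rw [ValuationSubring.coe_mem_nonunits_iff]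
    exact residue_eq_zero_iff a
  have hrne : ∀ a : V, V.valuation (a : L) = 1 → r a ≠ 0 := fun a ha h0 => by
    have := (V.mem_nonunits_iff).1 ((hr0 a).1 h0)
    rw [ha] at this
    exact lt_irrefl _ this
  have hrYj : r Yj = (r c₁ ^ 4 * (r c₁ - 1728) ^ 3) ^ k := by
    have h0 : r (Yj - (c₁ ^ 4 * (c₁ - 1728) ^ 3) ^ k) = 0 := (hr0 _).2 hYj
    have h1 : r (Yj - (c₁ ^ 4 * (c₁ - 1728) ^ 3) ^ k)
        = r Yj - (r c₁ ^ 4 * (r c₁ - 1728) ^ 3) ^ k := by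
      simp only [map_sub, map_mul, map_pow, map_ofNat]
    rw [h1, sub_eq_zero] at h0
    exact h0
  -- `r a₂ = r a₁`
  have hra : r a₂ = r a₁ := by
    have h0 : r (a₂ - a₁) = 0 := (hr0 _).2 hx
    rwa [map_sub, sub_eq_zero] at h0
  -- units
  have hra₁ : r a₁ ≠ 0 := hrne a₁ hh₁
  have hra₁' : r a₁ ^ 2 + 9 * r a₁ + 27 ≠ 0 := by
    have := hrne (a₁ ^ 2 + 9 * a₁ + 27) hh₁'
    rwa [map_add, map_add, map_mul, map_pow, map_ofNat, map_ofNat] at this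
  have hrc₁ : r c₁ ≠ 0 := hrne c₁ hj₁
  have hrc₁' : r c₁ - 1728 ≠ 0 := by
    have := hrne (c₁ - 1728) hj₁'
    rwa [map_sub, map_ofNat] at this
  have hrD : d9 (r a₁) ≠ 0 := mul_ne_zero (pow_ne_zero _ hra₁) hra₁'
  -- the relations in the residue field
  have hJr : r c₁ * d9 (r a₁) = p9 (r a₁) ^ 3 := by
    have h : c₁ * d9 a₁ = p9 a₁ ^ 3 := Subtype.ext hJ₁'
    have := congrArg r h
    rwa [map_mul, map_pow, map_d9, map_p9] at this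
  have hJr' : (r c₁ - 1728) * d9 (r a₁) = r9 (r a₁) ^ 2 := by
    linear_combination hJr + p9_cube_sub (r a₁)
  have hgr : r γ * r a₁ ^ 3 = (r a₁ ^ 2 + 9 * r a₁ + 27) ^ 5 := by
    have h : γ * a₁ ^ 3 = (a₁ ^ 2 + 9 * a₁ + 27) ^ 5 := Subtype.ext hg
    have := congrArg r h
    simpa only [map_mul, map_pow, map_add, map_ofNat] using this
  -- the difference quotient
  have hrB : r (dq9 a₁ a₂) = p9 (r a₁) ^ 2 * r a₁ ^ 8 * r9 (r a₁) := by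
    rw [map_dq9, hra, dq9_diag]
  have hP : p9 (r a₁) ≠ 0 := by
    intro h
    rw [h] at hJr
    exact (mul_ne_zero hrc₁ hrD) (by rw [hJr]; ring)
  have hR : r9 (r a₁) ≠ 0 := by
    intro h
    rw [h] at hJr'
    exact (mul_ne_zero hrc₁' hrD) (by rw [hJr']; ring)
  have hrB0 : r (dq9 a₁ a₂) ≠ 0 := by
    rw [hrB]
    exact mul_ne_zero (mul_ne_zero (pow_ne_zero _ hP) (pow_ne_zero _ hra₁)) hR
  have hBunit : IsUnit (dq9 a₁ a₂) := by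
    by_contra hnu
    exact hrB0 ((residue_eq_zero_iff _).2 ((mem_maximalIdeal _).2 hnu))
  obtain ⟨Bu, hBu⟩ := hBunit
  -- the key identity in `L`
  have hBL : ((dq9 a₁ a₂ : V) : L) = dq9 (a₁ : L) (a₂ : L) := rfl
  have hkeyL : (j₂ - (c₁ : L)) * (d9 (a₁ : L) * d9 (a₂ : L))
      = ((a₂ : L) - a₁) * dq9 (a₁ : L) (a₂ : L) := by
    rw [← dq9_spec]
    linear_combination (d9 (a₁ : L)) * hJ₂' - (d9 (a₂ : L)) * hJ₁'
  -- `Y = x^(6k)/U = Yj · A^(6k) / B^(6k) ∈ V`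
  obtain ⟨A, hA⟩ : ∃ A : V, A = d9 a₁ * d9 a₂ := ⟨_, rfl⟩
  have hAL : (A : L) = d9 (a₁ : L) * d9 (a₂ : L) := by
    rw [hA]; rfl
  obtain ⟨Y, hY⟩ : ∃ Y : V, Y = Yj * A ^ (6 * k) * ((Bu⁻¹ : Vˣ) : V) ^ (6 * k) := ⟨_, rfl⟩
  have hYB : Y * (dq9 a₁ a₂) ^ (6 * k) = Yj * A ^ (6 * k) := by
    rw [hY, ← hBu, mul_assoc, ← mul_pow, Units.inv_mul, one_pow, mul_one]
  have hYL : (Y : L) = ((a₂ : L) - a₁) ^ (6 * k) * U⁻¹ := by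
    have hB0 : (dq9 (a₁ : L) (a₂ : L)) ^ (6 * k) ≠ 0 := by
      apply pow_ne_zero
      intro h
      apply hrB0
      have : dq9 a₁ a₂ = 0 := Subtype.ext (hBL.trans h)
      rw [this, map_zero]
    apply mul_right_cancel₀ hB0
    have h1 : (Y : L) * (dq9 (a₁ : L) (a₂ : L)) ^ (6 * k) = (Yj : L) * (A : L) ^ (6 * k) :=
      congrArg (fun z : V => (z : L)) hYB
    have h6 : (j₂ - (c₁ : L)) ^ (6 * k) * (A : L) ^ (6 * k)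
        = ((a₂ : L) - a₁) ^ (6 * k) * (dq9 (a₁ : L) (a₂ : L)) ^ (6 * k) := by
      rw [← mul_pow, ← mul_pow, hAL, hkeyL]
    rw [h1, ← hYjL]
    generalize (j₂ - (c₁ : L)) ^ (6 * k) = J6 at h6 ⊢
    generalize (A : L) ^ (6 * k) = A6 at h6 ⊢
    generalize ((a₂ : L) - a₁) ^ (6 * k) = X6 at h6 ⊢
    generalize (dq9 (a₁ : L) (a₂ : L)) ^ (6 * k) = D6 at h6 ⊢
    linear_combination U⁻¹ * h6
  -- residue of `Y`
  have hrY : r Y = r γ ^ k := by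
    have h1 := congrArg r hYB
    rw [map_mul, map_mul, map_pow, map_pow, hrYj, hrB] at h1
    have hrA : r A = d9 (r a₁) * d9 (r a₁) := by
      rw [hA, map_mul, map_d9, map_d9, hra]
    rw [hrA] at h1
    have hW0 : (p9 (r a₁) ^ 2 * r a₁ ^ 8 * r9 (r a₁)) ^ (6 * k) ≠ 0 := by
      rw [← hrB]; exact pow_ne_zero _ hrB0
    have ha3 : (r a₁ ^ 3) ^ k ≠ 0 := pow_ne_zero _ (pow_ne_zero _ hra₁)
    apply mul_right_cancel₀ hW0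
    apply mul_right_cancel₀ ha3
    rw [h1]
    have key := res_alg9 (r a₁) (r c₁) hJr
    have e1 : r γ ^ k * (p9 (r a₁) ^ 2 * r a₁ ^ 8 * r9 (r a₁)) ^ (6 * k) * (r a₁ ^ 3) ^ k
        = ((r γ * r a₁ ^ 3) * (p9 (r a₁) ^ 2 * r a₁ ^ 8 * r9 (r a₁)) ^ 6) ^ k := by
      rw [pow_mul, ← mul_pow, ← mul_pow]; ring_nf
    have e2 : (r c₁ ^ 4 * (r c₁ - 1728) ^ 3) ^ k * (d9 (r a₁) * d9 (r a₁)) ^ (6 * k)
          * (r a₁ ^ 3) ^ k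
        = ((r c₁ ^ 4 * (r c₁ - 1728) ^ 3) * r a₁ ^ 3 * (d9 (r a₁) * d9 (r a₁)) ^ 6) ^ k := by
      rw [pow_mul, ← mul_pow, ← mul_pow]; ring_nf
    rw [e1, e2, hgr, key]
  -- conclusion
  have hfin : r (Y - γ ^ k) = 0 := by
    rw [map_sub, hrY, map_pow, sub_self]
  have hmem := (hr0 _).1 hfin
  have e : ((a₂ : L) - a₁) ^ (6 * k) * U⁻¹ - (γ : L) ^ k
      = (((a₂ : L) - a₁) ^ (6 * k) - (γ : L) ^ k * U) * U⁻¹ := by
    field_simp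
  rw [← e, ← hYL]
  exact hmem

/-- **Transfer of `hres` from `j` to `t₉`**, with `g₉ = Q(h₁)⁵ · (h₁³)⁻¹`. -/
theorem hres_transfer9 (V : ValuationSubring L) (j₁ j₂ h₁ h₂ U : L) (k : ℕ)
    (hJ₁ : j₁ * (h₁ ^ 9 * (h₁ ^ 2 + 9 * h₁ + 27))
      = ((h₁ + 9) * (h₁ ^ 3 + 243 * h₁ ^ 2 + 2187 * h₁ + 6561)) ^ 3)
    (hJ₂ : j₂ * (h₂ ^ 9 * (h₂ ^ 2 + 9 * h₂ + 27))
      = ((h₂ + 9) * (h₂ ^ 3 + 243 * h₂ ^ 2 + 2187 * h₂ + 6561)) ^ 3)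
    (hh₁ : V.valuation h₁ = 1) (hh₁' : V.valuation (h₁ ^ 2 + 9 * h₁ + 27) = 1)
    (hj₁ : V.valuation j₁ = 1) (hj₁' : V.valuation (j₁ - 1728) = 1)
    (hh₂ : h₂ ∈ V) (hx : h₂ - h₁ ∈ V.nonunits)
    (hres : ((j₂ - j₁) ^ (6 * k) - (j₁ ^ 4 * (j₁ - 1728) ^ 3) ^ k * U) * U⁻¹ ∈ V.nonunits) :
    ((h₂ - h₁) ^ (6 * k) - ((h₁ ^ 2 + 9 * h₁ + 27) ^ 5 * (h₁ ^ 3)⁻¹) ^ k * U) * U⁻¹
      ∈ V.nonunits := by
  have h₁0 : h₁ ≠ 0 := fun h0 => by rw [h0, map_zero] at hh₁; exact zero_ne_one hh₁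
  refine hres_transfer9_of_eq V j₁ j₂ h₁ h₂ U _ k hJ₁ hJ₂ hh₁ hh₁' hj₁ hj₁' hh₂ hx ?_ hres
  have h3 : h₁ ^ 3 ≠ 0 := pow_ne_zero _ h₁0
  rw [mul_assoc, inv_mul_cancel₀ h3, mul_one]

/-- **Transfer of `hres` from `j` to `t₉`**, hypotheses literally in the shape of helper890's
`Haupt9.jq_mul_t9` (`Q = h² + 9 h + 27`):
`j · (h⁹ · Q) = (h + 9)³ · (h³ + 243 · Q)³`. -/
theorem hres_transfer9_shape (V : ValuationSubring L) (j₁ j₂ h₁ h₂ U : L) (k : ℕ)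
    (hJ₁ : j₁ * (h₁ ^ 9 * (h₁ ^ 2 + 9 * h₁ + 27))
      = (h₁ + 9) ^ 3 * (h₁ ^ 3 + 243 * (h₁ ^ 2 + 9 * h₁ + 27)) ^ 3)
    (hJ₂ : j₂ * (h₂ ^ 9 * (h₂ ^ 2 + 9 * h₂ + 27))
      = (h₂ + 9) ^ 3 * (h₂ ^ 3 + 243 * (h₂ ^ 2 + 9 * h₂ + 27)) ^ 3)
    (hh₁ : V.valuation h₁ = 1) (hh₁' : V.valuation (h₁ ^ 2 + 9 * h₁ + 27) = 1)
    (hj₁ : V.valuation j₁ = 1) (hj₁' : V.valuation (j₁ - 1728) = 1)
    (hh₂ : h₂ ∈ V) (hx : h₂ - h₁ ∈ V.nonunits)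
    (hres : ((j₂ - j₁) ^ (6 * k) - (j₁ ^ 4 * (j₁ - 1728) ^ 3) ^ k * U) * U⁻¹ ∈ V.nonunits) :
    ((h₂ - h₁) ^ (6 * k) - ((h₁ ^ 2 + 9 * h₁ + 27) ^ 5 * (h₁ ^ 3)⁻¹) ^ k * U) * U⁻¹
      ∈ V.nonunits :=
  hres_transfer9 V j₁ j₂ h₁ h₂ U k (by linear_combination hJ₁) (by linear_combination hJ₂)
    hh₁ hh₁' hj₁ hj₁' hh₂ hx hres

end Fermat.Agent.S36.H934
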