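import Mathlib.RingTheory.Valuation.ValuationSubring
import Mathlib.Tactic.LinearCombination
import Mathlib.Tactic.FieldSimp

/-!
# `γ(t₉) ≡ α(t₉)` from `γ(j_d) ≡ α(j_d)`, `d ∣ 9` (helper934, S36 REG / R4, `q = 2` path)

Mathlib only; the level-`9` mirror of helper878's `Congr4`.  `V` a valuation subring of a field
`L` (application: `V = V_mid`).  Unprimed letters: images under `α` (inclusion
`F_M → F_{q² M}`); primed letters: images under `γ : f(t) ↦ f(t^{q²})`.  The Hauptmoduln are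
rational in the `j_d`:

  `U₃(j, j₃) · t₃ = W₃(j, j₃)`          (`Lib.Haupt.t3_lin`; `u3`, `w3` below),
  `U₃(j₃, j₉) · t₃(t³) = W₃(j₃, j₉)`     (`qExpand 3` of it),
  `t₉ · (A B - 243 A + 9 B + 729) = A² B + 18 A B + 27 B + 1458 A`,  `A = t₃`, `B = t₃(t³)`
  (`num9_of_rel`: a formal consequence of `A Q = t₉³`, `B = t₉ Q`, `Q = t₉² + 9 t₉ + 27`),

so congruences `j_d' ≡ j_d mod 𝔪_V` propagate to `t₉' ≡ t₉ mod 𝔪_V` as soon as the denominators
`U₃(j, j₃)`, `U₃(j₃, j₉)`, `A B - 243 A + 9 B + 729` are units of `V` (Gauss units: their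
`t`-expansions have leading coefficient `1`).  This is hypothesis `hx` of `hres_transfer9`.
-/

set_option autoImplicit false

namespace Fermat.Agent.S36.H934

open IsLocalRing

variable {L : Type*} [Field L]

/-! ### The polynomials -/

/-- The denominator `U₃ ∈ ℤ[x, y]` of `t₃ = W₃(j, j₃) / U₃(j, j₃)`
(same shape as `Lib.Haupt.U3`). -/
def u3 {S : Type*} [CommRing S] (x y : S) : S :=
  729 * x ^ 2 * y + 196830 * x * y ^ 2 + y ^ 3 - 524880 * x ^ 2 + 18821147040 * x * y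
    - 103456080 * y ^ 2 + 14229831680000 * x + 276373831680000 * y - 3623878656000000000

/-- The numerator `W₃ ∈ ℤ[x, y]` of `t₃ = W₃(j, j₃) / U₃(j, j₃)`
(same shape as `Lib.Haupt.W3`). -/
def w3 {S : Type*} [CommRing S] (x y : S) : S :=
  x * y ^ 3 + 19129644 * x * y ^ 2 - 756 * y ^ 3 + 531440 * x ^ 2 + 76509442080 * x * y
    + 23150726640 * y ^ 2 - 48430448640000 * x - 14204206448640000 * y
    + 97844723712000000000

/-- The denominator `A B - 243 A + 9 B + 729` of `t₉` in terms of `A = t₃`, `B = t₃(t³)`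
(same shape as in helper890's `Haupt9.t9_mul`). -/
def den9 {S : Type*} [CommRing S] (A B : S) : S := A * B - 243 * A + 9 * B + 729

/-- The numerator `A² B + 18 A B + 27 B + 1458 A` of `t₉` in terms of `A = t₃`,
`B = t₃(t³)` (same shape as the right-hand side of helper890's `Haupt9.t9_mul`). -/
def num9 {S : Type*} [CommRing S] (A B : S) : S :=
  A ^ 2 * B + 18 * (A * B) + 27 * B + 1458 * A

theorem map_u3 {S T : Type*} [CommRing S] [CommRing T] (f : S →+* T) (x y : S) :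
    f (u3 x y) = u3 (f x) (f y) := by
  simp only [u3, map_sub, map_add, map_mul, map_pow, map_ofNat]

theorem map_w3 {S T : Type*} [CommRing S] [CommRing T] (f : S →+* T) (x y : S) :
    f (w3 x y) = w3 (f x) (f y) := by
  simp only [w3, map_sub, map_add, map_mul, map_pow, map_ofNat]

theorem map_den9 {S T : Type*} [CommRing S] [CommRing T] (f : S →+* T) (x y : S) :
    f (den9 x y) = den9 (f x) (f y) := by
  simp only [den9, map_sub, map_add, map_mul, map_ofNat]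

theorem map_num9 {S T : Type*} [CommRing S] [CommRing T] (f : S →+* T) (x y : S) :
    f (num9 x y) = num9 (f x) (f y) := by
  simp only [num9, map_add, map_mul, map_pow, map_ofNat]

/-- The rational formula for `t₉` is a formal consequence of `A Q = t³` and `B = t Q`,
`Q = t² + 9 t + 27`. -/
theorem num9_of_rel {S : Type*} [CommRing S] [IsDomain S] (A B t : S)
    (hA : A * (t ^ 2 + 9 * t + 27) = t ^ 3) (hB : B = t * (t ^ 2 + 9 * t + 27))
    (hQ : t ^ 2 + 9 * t + 27 ≠ 0) :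
    t * den9 A B = num9 A B := by
  apply mul_right_cancel₀ hQ
  subst hB
  rw [den9, num9]
  linear_combination
    (t ^ 2 * (t ^ 2 + 9 * t + 27) - 243 * t - t * (A * (t ^ 2 + 9 * t + 27) + t ^ 3)
      - 18 * t * (t ^ 2 + 9 * t + 27) - 1458) * hA

/-- With `A Q = t³`, `B = t Q`: `den9 A B · Q` is a monic polynomial in `t`. -/
theorem den9_mul_of_rel {S : Type*} [CommRing S] (A B t : S)
    (hA : A * (t ^ 2 + 9 * t + 27) = t ^ 3) (hB : B = t * (t ^ 2 + 9 * t + 27)) :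
    den9 A B * (t ^ 2 + 9 * t + 27)
      = t ^ 6 + 18 * t ^ 5 + 189 * t ^ 4 + 972 * t ^ 3 + 5103 * t ^ 2 + 13122 * t + 19683 := by
  subst hB
  rw [den9]
  linear_combination (t * (t ^ 2 + 9 * t + 27) - 243) * hA

/-! ### Congruences modulo `𝔪_V` -/

theorem mem_of_mem_nonunits9 (V : ValuationSubring L) {a : L} (ha : a ∈ V.nonunits) : a ∈ V :=
  (V.valuation_le_one_iff _).1 ((V.mem_nonunits_iff).1 ha).le

theorem mem_of_sub_mem_nonunits9 (V : ValuationSubring L) {a b : L} (ha : a ∈ V)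
    (hab : b - a ∈ V.nonunits) : b ∈ V := by
  have := add_mem (mem_of_mem_nonunits9 V hab) ha
  simpa using this

theorem mul_mem_nonunits_of_mem9 (V : ValuationSubring L) {a b : L}
    (ha : a ∈ V) (hb : b ∈ V.nonunits) : a * b ∈ V.nonunits := by
  rw [ValuationSubring.mem_nonunits_iff, map_mul, mul_comm]
  exact mul_lt_one_of_lt_of_le ((V.mem_nonunits_iff).1 hb) ((V.valuation_le_one_iff _).2 ha)

theorem valuation_eq_one_of_sub_mem_nonunits9 (V : ValuationSubring L) {a b : L}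
    (ha : V.valuation a = 1) (hab : b - a ∈ V.nonunits) : V.valuation b = 1 := by
  have h1 : V.valuation (b - a) < V.valuation a := by
    rw [ha]; exact (V.mem_nonunits_iff).1 hab
  have h2 := Valuation.map_add_eq_of_lt_right V.valuation h1
  rw [sub_add_cancel] at h2
  rw [h2, ha]

/-- `b - a ∈ 𝔪_V` iff `a`, `b` have the same residue. -/
theorem coe_sub_mem_nonunits_iff9 (V : ValuationSubring L) (a b : V) :
    ((b : L) - (a : L)) ∈ V.nonunits ↔ residue V b = residue V a := by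
  have e : ((b : L) - (a : L)) = ((b - a : V) : L) := rfl
  rw [e, ValuationSubring.coe_mem_nonunits_iff, ← residue_eq_zero_iff, map_sub, sub_eq_zero]

/-- A binary polynomial law respects congruences modulo `𝔪_V`. -/
theorem congr_of_map9 (V : ValuationSubring L) (FL : L → L → L) (FV : V → V → V)
    (Fκ : ResidueField V → ResidueField V → ResidueField V)
    (hL : ∀ a b : V, FL a b = FV a b)
    (hκ : ∀ a b : V, residue V (FV a b) = Fκ (residue V a) (residue V b))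
    {x y x' y' : L} (hx : x ∈ V) (hy : y ∈ V)
    (hxx : x' - x ∈ V.nonunits) (hyy : y' - y ∈ V.nonunits) :
    FL x y ∈ V ∧ FL x' y' ∈ V ∧ FL x' y' - FL x y ∈ V.nonunits := by
  have hx' : x' ∈ V := mem_of_sub_mem_nonunits9 V hx hxx
  have hy' : y' ∈ V := mem_of_sub_mem_nonunits9 V hy hyy
  lift x to V using hx
  lift y to V using hy
  lift x' to V using hx'
  lift y' to V using hy'
  rw [coe_sub_mem_nonunits_iff9] at hxx hyy
  refine ⟨?_, ?_, ?_⟩
  · rw [hL]; exact (FV x y).2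
  · rw [hL]; exact (FV x' y').2
  · rw [hL, hL, coe_sub_mem_nonunits_iff9, hκ, hκ, hxx, hyy]

theorem u3_congr (V : ValuationSubring L) {x y x' y' : L} (hx : x ∈ V) (hy : y ∈ V)
    (hxx : x' - x ∈ V.nonunits) (hyy : y' - y ∈ V.nonunits) :
    u3 x y ∈ V ∧ u3 x' y' ∈ V ∧ u3 x' y' - u3 x y ∈ V.nonunits :=
  congr_of_map9 V u3 u3 u3 (fun a b => (map_u3 V.subtype a b).symm)
    (fun a b => map_u3 (residue V) a b) hx hy hxx hyy

theorem w3_congr (V : ValuationSubring L) {x y x' y' : L} (hx : x ∈ V) (hy : y ∈ V)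
    (hxx : x' - x ∈ V.nonunits) (hyy : y' - y ∈ V.nonunits) :
    w3 x y ∈ V ∧ w3 x' y' ∈ V ∧ w3 x' y' - w3 x y ∈ V.nonunits :=
  congr_of_map9 V w3 w3 w3 (fun a b => (map_w3 V.subtype a b).symm)
    (fun a b => map_w3 (residue V) a b) hx hy hxx hyy

theorem den9_congr (V : ValuationSubring L) {x y x' y' : L} (hx : x ∈ V) (hy : y ∈ V)
    (hxx : x' - x ∈ V.nonunits) (hyy : y' - y ∈ V.nonunits) :
    den9 x y ∈ V ∧ den9 x' y' ∈ V ∧ den9 x' y' - den9 x y ∈ V.nonunits :=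
  congr_of_map9 V den9 den9 den9 (fun a b => (map_den9 V.subtype a b).symm)
    (fun a b => map_den9 (residue V) a b) hx hy hxx hyy

theorem num9_congr (V : ValuationSubring L) {x y x' y' : L} (hx : x ∈ V) (hy : y ∈ V)
    (hxx : x' - x ∈ V.nonunits) (hyy : y' - y ∈ V.nonunits) :
    num9 x y ∈ V ∧ num9 x' y' ∈ V ∧ num9 x' y' - num9 x y ∈ V.nonunits :=
  congr_of_map9 V num9 num9 num9 (fun a b => (map_num9 V.subtype a b).symm)
    (fun a b => map_num9 (residue V) a b) hx hy hxx hyy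

/-- If `U t = W`, `U' t' = W'` with `U` a unit of `V`, `U' ≡ U`, `W' ≡ W` modulo `𝔪_V`, then
`t, t' ∈ V` and `t' ≡ t`. -/
theorem lin_congr9 (V : ValuationSubring L) {U W t U' W' t' : L}
    (hU : V.valuation U = 1) (hW : W ∈ V) (hW' : W' ∈ V)
    (h : U * t = W) (h' : U' * t' = W')
    (hUU : U' - U ∈ V.nonunits) (hWW : W' - W ∈ V.nonunits) :
    t ∈ V ∧ t' ∈ V ∧ t' - t ∈ V.nonunits := by
  have hU' : V.valuation U' = 1 := valuation_eq_one_of_sub_mem_nonunits9 V hU hUU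
  have hU0 : U ≠ 0 := fun h0 => by rw [h0, map_zero] at hU; exact zero_ne_one hU
  have hU'0 : U' ≠ 0 := fun h0 => by rw [h0, map_zero] at hU'; exact zero_ne_one hU'
  have ht : t = W * U⁻¹ := by rw [← h]; field_simp
  have ht' : t' = W' * U'⁻¹ := by rw [← h']; field_simp
  have hvt : V.valuation t ≤ 1 := by
    rw [ht, map_mul, map_inv₀, hU, inv_one, mul_one]
    exact (V.valuation_le_one_iff _).2 hW
  have hvt' : V.valuation t' ≤ 1 := by
    rw [ht', map_mul, map_inv₀, hU', inv_one, mul_one]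
    exact (V.valuation_le_one_iff _).2 hW'
  refine ⟨(V.valuation_le_one_iff _).1 hvt, (V.valuation_le_one_iff _).1 hvt', ?_⟩
  have e : t' - t = ((W' - W) - t * (U' - U)) * U'⁻¹ := by
    rw [ht', ht]; field_simp; ring
  have hnum : (W' - W) - t * (U' - U) ∈ V.nonunits :=
    sub_mem hWW (mul_mem_nonunits_of_mem9 V ((V.valuation_le_one_iff _).1 hvt) hUU)
  rw [ValuationSubring.mem_nonunits_iff, e, map_mul, map_inv₀, hU', inv_one, mul_one]
  exact (V.mem_nonunits_iff).1 hnum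

/-- **`t₃' ≡ t₃`** from `j' ≡ j`, `j₃' ≡ j₃`. -/
theorem t3_congr (V : ValuationSubring L) {j j3 t3 j' j3' t3' : L}
    (hj : j ∈ V) (hj3 : j3 ∈ V)
    (c1 : j' - j ∈ V.nonunits) (c3 : j3' - j3 ∈ V.nonunits)
    (hU : V.valuation (u3 j j3) = 1)
    (l : u3 j j3 * t3 = w3 j j3) (l' : u3 j' j3' * t3' = w3 j' j3') :
    t3 ∈ V ∧ t3' ∈ V ∧ t3' - t3 ∈ V.nonunits := by
  obtain ⟨-, -, hu⟩ := u3_congr V hj hj3 c1 c3
  obtain ⟨hw, hw', hww⟩ := w3_congr V hj hj3 c1 c3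
  exact lin_congr9 V hU hw hw' l l' hu hww

/-- **`γ(t₉) ≡ α(t₉)` modulo `𝔪_V`** from `γ(j_d) ≡ α(j_d)`, `d ∈ {1, 3, 9}`.
`A = t₃`, `B = t₃(t³)`. -/
theorem t9_congr (V : ValuationSubring L) {j j3 j9 A B t9 j' j3' j9' A' B' t9' : L}
    (hj : j ∈ V) (hj3 : j3 ∈ V) (hj9 : j9 ∈ V)
    (c1 : j' - j ∈ V.nonunits) (c3 : j3' - j3 ∈ V.nonunits) (c9 : j9' - j9 ∈ V.nonunits)
    (hU : V.valuation (u3 j j3) = 1) (hUe : V.valuation (u3 j3 j9) = 1)
    (hden : V.valuation (den9 A B) = 1)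
    (l1 : u3 j j3 * A = w3 j j3) (l2 : u3 j3 j9 * B = w3 j3 j9)
    (l3 : t9 * den9 A B = num9 A B)
    (l1' : u3 j' j3' * A' = w3 j' j3') (l2' : u3 j3' j9' * B' = w3 j3' j9')
    (l3' : t9' * den9 A' B' = num9 A' B') :
    t9 ∈ V ∧ t9' ∈ V ∧ t9' - t9 ∈ V.nonunits := by
  obtain ⟨hA, -, dA⟩ := t3_congr V hj hj3 c1 c3 hU l1 l1'
  obtain ⟨hB, -, dB⟩ := t3_congr V hj3 hj9 c3 c9 hUe l2 l2'
  obtain ⟨-, -, hd⟩ := den9_congr V hA hB dA dB
  obtain ⟨hn, hn', hnn⟩ := num9_congr V hA hB dA dB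
  exact lin_congr9 V hden hn hn' (by rw [mul_comm]; exact l3) (by rw [mul_comm]; exact l3')
    hd hnn

/-- Variant of `t9_congr` with the level-`9` relations `A Q = t₉³`, `B = t₉ Q` as input
instead of the rational formula. -/
theorem t9_congr_of_rel (V : ValuationSubring L) {j j3 j9 A B t9 j' j3' j9' A' B' t9' : L}
    (hj : j ∈ V) (hj3 : j3 ∈ V) (hj9 : j9 ∈ V)
    (c1 : j' - j ∈ V.nonunits) (c3 : j3' - j3 ∈ V.nonunits) (c9 : j9' - j9 ∈ V.nonunits)
    (hU : V.valuation (u3 j j3) = 1) (hUe : V.valuation (u3 j3 j9) = 1)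
    (hden : V.valuation (den9 A B) = 1)
    (l1 : u3 j j3 * A = w3 j j3) (l2 : u3 j3 j9 * B = w3 j3 j9)
    (rA : A * (t9 ^ 2 + 9 * t9 + 27) = t9 ^ 3) (rB : B = t9 * (t9 ^ 2 + 9 * t9 + 27))
    (rQ : t9 ^ 2 + 9 * t9 + 27 ≠ 0)
    (l1' : u3 j' j3' * A' = w3 j' j3') (l2' : u3 j3' j9' * B' = w3 j3' j9')
    (rA' : A' * (t9' ^ 2 + 9 * t9' + 27) = t9' ^ 3)
    (rB' : B' = t9' * (t9' ^ 2 + 9 * t9' + 27))
    (rQ' : t9' ^ 2 + 9 * t9' + 27 ≠ 0) :
    t9 ∈ V ∧ t9' ∈ V ∧ t9' - t9 ∈ V.nonunits :=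
  t9_congr V hj hj3 hj9 c1 c3 c9 hU hUe hden l1 l2 (num9_of_rel A B t9 rA rB rQ) l1' l2'
    (num9_of_rel A' B' t9' rA' rB' rQ')

end Fermat.Agent.S36.H934
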